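/-
TR (0-SIDE), helper34: **(KEY) from its `∞`-half.**

The hypotheses of helper20's `TR.Top.TRKey` on `(V, L)` — `p`-torsion, cardinalities, the Hecke
eigen-condition (H), the inertia conditions (ST), (DEEP) — are invariant under the Atkin–Lehner
operator `autOp W` (`TR/Zero/ALTransport.lean`), and a Kummer function of `autOp W x` in `O_∞` is
`W` of a Kummer function of `x` in `O_0` with the same reduction.  Hence the `0`-side of (KEY)
needs NO separate proof: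

* `TRKeyInf` : the `∞`-half of (KEY) — under the hypotheses of `TRKey`, every `x ∈ V` has a Kummer
  function `f ∈ O_∞` whose reduction is a nonzero `constant * u ^ p`;
* `trKey_of_inf : TRKeyInf → TRKey` — apply the `∞`-half to `(V, L, x)` and to
  `(autOp W V, autOp W L, autOp W x)`, then helper22's (ADP)
  `BAD.KerRed.mem_kerRed_of_kummerPair_two_char`.
-/
import Mathlib
import Fermat.Agent.TR.Top.S44Of
import Fermat.Agent.TR.Zero.ALTransport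
import Fermat.Agent.BAD.KerRedKummerAdp
import Fermat.Agent.Lib.FF.CharP.ModLInst

set_option autoImplicit false
set_option linter.unusedSectionVars false
set_option linter.style.haveILetI false

open ModularCurve AlgebraicCurve

namespace Fermat.Agent.TR.Zero

open Fermat.Agent.BAD.TwoVal Fermat.Agent.BAD.BadU Fermat.Agent.BAD.KerRed
  Fermat.Agent.ESJ.Jac Fermat.Agent.G1.GaloisOps Fermat.Agent.TR.Top
  Fermat.Agent.TR.Zero.ALTransport

local notation "Qb" => AlgebraicClosure ℚ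
local notation "GQ" => (AlgebraicClosure ℚ ≃ₐ[ℚ] AlgebraicClosure ℚ)

/-- **The `∞`-half of (KEY)**: under the hypotheses of `TR.Top.TRKey`, every `x ∈ V` has a Kummer
function (of exponent `p`) in `O_∞` whose reduction is `u ^ p` for a nonzero function `u`
(equivalently a nonzero `constant * u ^ p`: `const_mul_pow_eq_pow`). -/
def TRKeyInf : Prop :=
  ∀ (A : ValuationSubring Qb) (M p : ℕ) [NeZero M] [NeZero p]
    (h : BadSetup A (IsLocalRing.residue A) M p), A.LiesOverPrime p → 5 ≤ p →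
    ∀ W : laurentBaseChange Qb (modularFunctionFieldFull (M * p)) ≃ₐ[Qb]
      laurentBaseChange Qb (modularFunctionFieldFull (M * p)), IsAL M p W →
    ∀ (a : Nat.Primes → ℤ) (S : Finset ℕ), p ∈ S → (∀ q : ℕ, q.Prime → q ∣ M → q ∈ S) →
    -- (NE)
    (∃ ℓ : Nat.Primes, (ℓ : ℕ) ∉ S ∧ ¬ (p : ℤ) ∣ a ℓ - (ℓ : ℕ) - 1) →
    -- (NO)
    (¬ ∃ (g : CuspForm (CongruenceSubgroup.Gamma0 M) 2) (𝔪 : Ideal (integralClosure ℤ ℂ)),
      g.IsNormalizedEigenform ∧ 𝔪.IsMaximal ∧ (p : integralClosure ℤ ℂ) ∈ 𝔪 ∧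
      ∀ ℓ : Nat.Primes, (ℓ : ℕ) ∉ S →
        ∃ c : integralClosure ℤ ℂ, (c : ℂ) = ModularFormClass.qCoeff g ℓ ∧
          c - ((a ℓ : ℤ) : integralClosure ℤ ℂ) ∈ 𝔪) →
    ∀ V L : AddSubgroup (JZero (M * p)), L ≤ V → (∀ x ∈ V, p • x = 0) →
      Nat.card V = p ^ 2 → Nat.card L = p →
    -- (H)
    (∀ ℓ : Nat.Primes, (ℓ : ℕ) ∉ S → ∀ x ∈ V, heckeOperatorBar (M * p) ℓ x = a ℓ • x) →
    -- (ST)
    (∀ σ ∈ A.inertiaSubgroupIn ℚ, ∀ v ∈ V, σ • v - v ∈ L) →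
    (∀ σ ∈ A.inertiaSubgroupIn ℚ, ∀ a : ℕ, (∀ μ : Qb, μ ^ p = 1 → σ μ = μ ^ a) →
      ∀ v ∈ L, σ • v = a • v) →
    -- (DEEP)
    (∀ σ ∈ A.inertiaSubgroupIn ℚ, ∀ ρ : A.ValueGroup, ρ ^ (p - 1) < A.valuation ((p : ℕ) : Qb) →
      (∀ c ∈ A, (∀ τ ∈ A.inertiaSubgroupIn ℚ, (∀ x ∈ V, τ • x = x) → τ c = c) →
        A.valuation (σ c - c) ≤ ρ) →
      ∀ x ∈ V, σ • x = x) →
    ∀ x ∈ V, ∃ (f : laurentBaseChange Qb (modularFunctionFieldFull (M * p))) (hf : f ∈ OInf h)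
      (u : ↥(modularFunctionFieldFullC (IsLocalRing.ResidueField A) M)),
      IsKummerPair p x f ∧ redInf h ⟨f, hf⟩ = u ^ p ∧ u ≠ 0

/-- Over an algebraically closed field of constants, `constant * u ^ n` is an `n`-th power. -/
theorem const_mul_pow_eq_pow {k κ : Type*} [Field k] [IsAlgClosed k] [Field κ] [Algebra k κ]
    (c : k) (u : κ) {n : ℕ} (hn : n ≠ 0) : ∃ v : κ, algebraMap k κ c * u ^ n = v ^ n := by
  obtain ⟨d, hd⟩ := IsAlgClosed.exists_pow_nat_eq c (Nat.pos_of_ne_zero hn)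
  exact ⟨algebraMap k κ d * u, by rw [mul_pow, ← map_pow, hd]⟩

set_option maxHeartbeats 1000000 in
/-- **(KEY) from its `∞`-half**: the `0`-side is the `∞`-side of the Atkin–Lehner transform. -/
theorem trKey_of_inf (hInf : TRKeyInf) : TRKey := by
  intro A M p _ _ h hA hp5 W hW a S hpS hMS hNE hNO V L hLV hVp hcardV hcardL hH hST hcyc hDEEP
    x hx
  have hpp : p.Prime := h.hℓ
  haveI := h.charP
  have hpM : ¬ p ∣ M := by
    intro hd
    exact h.hMk ((CharP.cast_eq_zero_iff (IsLocalRing.ResidueField A) p M).mpr hd)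
  haveI : IsAlgClosed (IsLocalRing.ResidueField A) :=
    Fermat.Agent.Lib.FF.CharP.isAlgClosed_residueField A
  -- the `∞`-half for `(V, L, x)`
  obtain ⟨f₁, hf₁, u₁, hk₁, hr₁, hne₁⟩ :=
    hInf A M p h hA hp5 W hW a S hpS hMS hNE hNO V L hLV hVp hcardV hcardL hH hST hcyc hDEEP x hx
  -- the transformed data
  have hfix : ∀ (τ : GQ) (y : JZero (M * p)), τ • autOp W y = autOp W y ↔ τ • y = y :=
    fun τ y => galois_fixed_autOp_iff hW hpp hpM τ y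
  have hLV' : L.map (autOp W) ≤ V.map (autOp W) := AddSubgroup.map_mono hLV
  have hVp' : ∀ y ∈ V.map (autOp W), p • y = 0 := by
    rintro _ ⟨y, hy, rfl⟩
    exact (autOp_nsmul_eq_zero_iff p y).mpr (hVp y hy)
  have hcardV' : Nat.card (V.map (autOp W)) = p ^ 2 := (card_map_autOp V).trans hcardV
  have hcardL' : Nat.card (L.map (autOp W)) = p := (card_map_autOp L).trans hcardL
  have hH' : ∀ ℓ : Nat.Primes, (ℓ : ℕ) ∉ S → ∀ y ∈ V.map (autOp W),
      heckeOperatorBar (M * p) ℓ y = a ℓ • y := by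
    rintro ℓ hℓ _ ⟨y, hy, rfl⟩
    have hℓp : (ℓ : ℕ) ≠ p := fun e => hℓ (e ▸ hpS)
    exact (hecke_eigen_autOp_iff hW hpp hpM ℓ hℓp (a ℓ) y).mpr (hH ℓ hℓ y hy)
  have hST' : ∀ σ ∈ A.inertiaSubgroupIn ℚ, ∀ v ∈ V.map (autOp W),
      σ • v - v ∈ L.map (autOp W) := by
    rintro σ hσ _ ⟨y, hy, rfl⟩
    refine ⟨σ • y - y, hST σ hσ y hy, ?_⟩
    rw [map_sub, autOp_galois_JZero hW hpp hpM σ y]
  have hcyc' : ∀ σ ∈ A.inertiaSubgroupIn ℚ, ∀ n : ℕ, (∀ μ : Qb, μ ^ p = 1 → σ μ = μ ^ n) →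
      ∀ v ∈ L.map (autOp W), σ • v = n • v := by
    rintro σ hσ n hn _ ⟨y, hy, rfl⟩
    rw [← autOp_galois_JZero hW hpp hpM σ y, hcyc σ hσ n hn y hy, map_nsmul]
  have hDEEP' : ∀ σ ∈ A.inertiaSubgroupIn ℚ, ∀ ρ : A.ValueGroup,
      ρ ^ (p - 1) < A.valuation ((p : ℕ) : Qb) →
      (∀ c ∈ A, (∀ τ ∈ A.inertiaSubgroupIn ℚ, (∀ y ∈ V.map (autOp W), τ • y = y) → τ c = c) →
        A.valuation (σ c - c) ≤ ρ) →
      ∀ y ∈ V.map (autOp W), σ • y = y := by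
    rintro σ hσ ρ hρ hc _ ⟨y, hy, rfl⟩
    have h1 : ∀ y ∈ V, σ • y = y := by
      refine hDEEP σ hσ ρ hρ (fun c hcA hcfix => hc c hcA (fun τ hτ hτV => hcfix τ hτ ?_))
      intro y hy
      exact (hfix τ y).mp (hτV _ ⟨y, hy, rfl⟩)
    exact (hfix σ y).mpr (h1 y hy)
  -- the `∞`-half for the transform of `x`
  obtain ⟨g, hg, u₂, hk₂, hr₂, hne₂⟩ :=
    hInf A M p h hA hp5 W hW a S hpS hMS hNE hNO (V.map (autOp W)) (L.map (autOp W)) hLV' hVp'
      hcardV' hcardL' hH' hST' hcyc' hDEEP' (autOp W x) ⟨x, hx, rfl⟩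
  -- back to the `0`-side of `x`
  obtain ⟨f₂, hk₂', hf₂, hr₂', -⟩ :=
    (kummer_zero_iff (W := W) h p x (redInf h ⟨g, hg⟩)).mpr
      ⟨g, hk₂, hg, rfl, by rw [hr₂]; exact pow_ne_zero p hne₂⟩
  exact mem_kerRed_of_kummerPair_two IsLocalRing.residue_surjective h W hW p hpp.ne_zero
    (fun c hc => eq_one_of_pow_char_pow p hpp 1 c (by rwa [pow_one])) x f₁ f₂ hk₁ hk₂' hf₁ hf₂
    u₁ u₂ hne₁ hne₂ hr₁ (hr₂'.trans hr₂)

end Fermat.Agent.TR.Zero
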