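/-
TR (0-SIDE), helper34: **the Atkin–Lehner transport.**

`F = L · F_{Mp}`, `W` an Atkin–Lehner involution of `F` (`IsAL M p W`: it exchanges the two
degeneracy maps `α_p, β_p : L · F_M → L · F_{Mp}`), `autOp W : Pic0 L F →+ Pic0 L F` the induced
operator on divisor classes (`G1/GaloisOps.lean`).  Everything on the `0`-side of the bad fibre
(`OZero h W`, `redZero h W`) is the `∞`-side (`OInf h`, `redInf h`) of the `W`-transform:

* `kummer_zero_iff` : `x` has a Kummer function in `O_0` with reduction `hbar` iff `autOp W x` has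
  a Kummer function in `O_∞` with reduction `hbar`;
* `autOp_galois` : `autOp W` commutes with the coefficientwise Galois action (`W` is defined over
  `ℚ`);
* `exists_lift` : for `p ∤ M r` the involution `W` lifts to an automorphism `W'` of level `M p r`
  compatible with the two degeneracy maps `α_r, β_r` of level `M p`;
* `autOp_heckeOperatorAlong`, `autOp_heckeOperatorBar` : `autOp W` commutes with the Hecke
  operators `T_r`, `p ∤ M r`;
* `autOp_symm_autOp`, `autOp_autOp_symm`, `autOp_invol`, `autOp_injective`, `autOp_nsmul_eq_zero_iff`,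
  `card_map_autOp` : `autOp W` is an (involutive) automorphism of the group of classes.
-/
import Mathlib
import Fermat.Agent.G1.GaloisOps
import Fermat.Agent.BAD.TwoVal.GaloisPair
import Fermat.Agent.CAR.V3.AL3

set_option autoImplicit false
set_option linter.unusedSectionVars false
set_option linter.style.haveILetI false

noncomputable section

namespace Fermat.Agent.TR.Zero.ALTransport

open AlgebraicCurve ModularCurve HahnSeries
open Fermat.Agent.ESJ.Jac Fermat.Agent.ESJ.Cong Fermat.Agent.ESJ.Cong.LevelGen
open Fermat.Agent.BAD.TwoVal Fermat.Agent.G1.GaloisOps Fermat.Agent.S28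

/-! ### Level casts -/

section Cast

variable (L : Type) [Field L] [Algebra ℚ L]

/-- The identification of the function fields of two equal levels. -/
def levelEquiv {N₁ N₂ : ℕ} (h : N₁ = N₂) :
    laurentBaseChange L (modularFunctionFieldFull N₁) ≃ₐ[L]
      laurentBaseChange L (modularFunctionFieldFull N₂) := by
  subst h
  exact AlgEquiv.refl

theorem coe_levelEquiv {N₁ N₂ : ℕ} (h : N₁ = N₂)
    (f : laurentBaseChange L (modularFunctionFieldFull N₁)) :
    ((levelEquiv L h f : laurentBaseChange L (modularFunctionFieldFull N₂)) : LaurentSeries L) =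
      (f : LaurentSeries L) := by
  subst h
  rfl

theorem coe_levelEquiv_symm {N₁ N₂ : ℕ} (h : N₁ = N₂)
    (f : laurentBaseChange L (modularFunctionFieldFull N₂)) :
    (((levelEquiv L h).symm f : laurentBaseChange L (modularFunctionFieldFull N₁)) :
      LaurentSeries L) = (f : LaurentSeries L) := by
  subst h
  rfl

end Cast

/-! ### Kummer functions on the `0`-side -/

section Kummer

variable {L : Type} [Field L] [Algebra ℚ L] {A : ValuationSubring L} {k : Type} [Field k]
  {π : A →+* k} {M p : ℕ} [NeZero M] [NeZero p]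
  {W : laurentBaseChange L (modularFunctionFieldFull (M * p)) ≃ₐ[L]
    laurentBaseChange L (modularFunctionFieldFull (M * p))}

/-- `autOp W.symm` is a left inverse of `autOp W`. -/
theorem autOp_symm_autOp (x : Pic0 L (laurentBaseChange L (modularFunctionFieldFull (M * p)))) :
    autOp W.symm (autOp W x) = x := by
  have h : (W.symm * W : laurentBaseChange L (modularFunctionFieldFull (M * p)) ≃ₐ[L]
      laurentBaseChange L (modularFunctionFieldFull (M * p))) = 1 := by
    apply AlgEquiv.ext
    intro z
    exact W.symm_apply_apply z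
  rw [← autOp_mul, h, autOp_one]

/-- `autOp W.symm` is a right inverse of `autOp W`. -/
theorem autOp_autOp_symm (x : Pic0 L (laurentBaseChange L (modularFunctionFieldFull (M * p)))) :
    autOp W (autOp W.symm x) = x := by
  have h : (W * W.symm : laurentBaseChange L (modularFunctionFieldFull (M * p)) ≃ₐ[L]
      laurentBaseChange L (modularFunctionFieldFull (M * p))) = 1 := by
    apply AlgEquiv.ext
    intro z
    exact W.apply_symm_apply z
  rw [← autOp_mul, h, autOp_one]

theorem autOp_injective : Function.Injective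
    (autOp W : Pic0 L (laurentBaseChange L (modularFunctionFieldFull (M * p))) →+ _) :=
  Function.LeftInverse.injective autOp_symm_autOp

theorem autOp_surjective : Function.Surjective
    (autOp W : Pic0 L (laurentBaseChange L (modularFunctionFieldFull (M * p))) →+ _) :=
  Function.RightInverse.surjective autOp_autOp_symm

/-- `autOp W` preserves the order of a class. -/
theorem autOp_nsmul_eq_zero_iff (n : ℕ)
    (x : Pic0 L (laurentBaseChange L (modularFunctionFieldFull (M * p)))) :
    n • autOp W x = 0 ↔ n • x = 0 := by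
  rw [← map_nsmul]
  exact ⟨fun h => autOp_injective (h.trans (map_zero _).symm), fun h => by rw [h, map_zero]⟩

/-- `autOp W` preserves the cardinality of subgroups. -/
theorem card_map_autOp
    (V : AddSubgroup (Pic0 L (laurentBaseChange L (modularFunctionFieldFull (M * p))))) :
    Nat.card (V.map (autOp W)) = Nat.card V :=
  (Nat.card_congr (V.equivMapOfInjective _ autOp_injective).toEquiv).symm

/-- An Atkin–Lehner involution induces an involution of the group of classes. -/
theorem autOp_invol (hW : IsAL M p W) (hp : p.Prime) (hpM : ¬ p ∣ M)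
    (x : Pic0 L (laurentBaseChange L (modularFunctionFieldFull (M * p)))) :
    autOp W (autOp W x) = x := by
  have h : (W * W : laurentBaseChange L (modularFunctionFieldFull (M * p)) ≃ₐ[L]
      laurentBaseChange L (modularFunctionFieldFull (M * p))) = 1 := by
    apply AlgEquiv.ext
    intro z
    exact hW.invol hp hpM z
  rw [← autOp_mul, h, autOp_one]

/-- **Kummer transport**: `x` has a Kummer function (of exponent `n`) in `O_0` with reduction
`hbar` iff `autOp W x` has one in `O_∞` with reduction `hbar`. -/
theorem kummer_zero_iff (h : BadSetup A π M p) (n : ℕ)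
    (x : Pic0 L (laurentBaseChange L (modularFunctionFieldFull (M * p))))
    (hbar : ↥(modularFunctionFieldFullC k M)) :
    (∃ f, IsKummerPair n x f ∧ ∃ hf : f ∈ OZero h W, redZero h W ⟨f, hf⟩ = hbar ∧ hbar ≠ 0) ↔
      (∃ g, IsKummerPair n (autOp W x) g ∧
        ∃ hg : g ∈ OInf h, redInf h ⟨g, hg⟩ = hbar ∧ hbar ≠ 0) := by
  constructor
  · rintro ⟨f, hK, hf, hred, hne⟩
    exact ⟨W f, isKummerPair_autOp hK W, hf, hred, hne⟩
  · rintro ⟨g, hK, hg, hred, hne⟩
    have hK' := isKummerPair_autOp hK W.symm
    rw [autOp_symm_autOp] at hK'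
    have hmem : W.symm g ∈ OZero h W := by
      rw [mem_OZero_iff, W.apply_symm_apply]
      exact hg
    refine ⟨W.symm g, hK', hmem, ?_, hne⟩
    rw [redZero_mk, ← hred]
    congr 1
    exact Subtype.ext (W.apply_symm_apply g)

/-- **`autOp W` commutes with the Galois action** (`W` is defined over `ℚ`). -/
theorem autOp_galois (hW : IsAL M p W) (hp : p.Prime) (hpM : ¬ p ∣ M) (σ : L ≃ₐ[ℚ] L)
    (x : Pic0 L (laurentBaseChange L (modularFunctionFieldFull (M * p)))) :
    autOp W (σ • x) = σ • autOp W x :=
  comm_autOp W σ (hW.galois_comm hp hpM σ) x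

end Kummer

/-! ### The lift of `W` to level `M p r` and the Hecke operators -/

section Hecke

variable {L : Type} [Field L] [Algebra ℚ L] {M p : ℕ} [NeZero M] [NeZero p]
  {W : laurentBaseChange L (modularFunctionFieldFull (M * p)) ≃ₐ[L]
    laurentBaseChange L (modularFunctionFieldFull (M * p))}

/-- **The Atkin–Lehner involution at `p` lifts along the degeneracy maps at `r`**: for `p ∤ M r`
there is an automorphism `W'` of level `M p r` with `W' ∘ α_r = α_r ∘ W` and
`W' ∘ β_r = β_r ∘ W`. -/
theorem exists_lift (hW : IsAL M p W) (hp : p.Prime) (hpM : ¬ p ∣ M) (r : ℕ) [NeZero r]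
    (hpr : ¬ p ∣ M * r) :
    ∃ W' : laurentBaseChange L (modularFunctionFieldFull (M * p * r)) ≃ₐ[L]
        laurentBaseChange L (modularFunctionFieldFull (M * p * r)),
      (∀ x, W' (heckeAlphaBar L (M * p) r x) = heckeAlphaBar L (M * p) r (W x)) ∧
      (∀ x, W' (heckeBetaBar L (M * p) r x) = heckeBetaBar L (M * p) r (W x)) := by
  haveI : NeZero (M * r) := ⟨Nat.mul_ne_zero (NeZero.ne M) (NeZero.ne r)⟩
  obtain ⟨W₁, hW₁⟩ := Fermat.Agent.CAR.V3.AL3.exists_isAL_of_charZero (L := L) (M * r) p hp hpr
  have hN : M * r * p = M * p * r := Nat.mul_right_comm M r p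
  -- `W'` on an element with the series of `α_p x`, `x` of level `M r`
  have hα : ∀ (z : laurentBaseChange L (modularFunctionFieldFull (M * p * r)))
      (x : laurentBaseChange L (modularFunctionFieldFull (M * r))),
      (z : LaurentSeries L) = (x : LaurentSeries L) →
      ((levelEquiv L hN (W₁ ((levelEquiv L hN).symm z)) :
        laurentBaseChange L (modularFunctionFieldFull (M * p * r))) : LaurentSeries L) =
        qExpand L p (x : LaurentSeries L) := by
    intro z x hzx
    have e1 : (levelEquiv L hN).symm z = heckeAlphaBar L (M * r) p x := by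
      apply Subtype.ext
      rw [coe_levelEquiv_symm, coe_heckeAlphaBar, hzx]
    rw [coe_levelEquiv, e1, hW₁.alpha, coe_heckeBetaBar]
  -- `W'` on an element with the series of `β_p x`, `x` of level `M r`
  have hβ : ∀ (z : laurentBaseChange L (modularFunctionFieldFull (M * p * r)))
      (x : laurentBaseChange L (modularFunctionFieldFull (M * r))),
      (z : LaurentSeries L) = qExpand L p (x : LaurentSeries L) →
      ((levelEquiv L hN (W₁ ((levelEquiv L hN).symm z)) :
        laurentBaseChange L (modularFunctionFieldFull (M * p * r))) : LaurentSeries L) =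
        (x : LaurentSeries L) := by
    intro z x hzx
    have e1 : (levelEquiv L hN).symm z = heckeBetaBar L (M * r) p x := by
      apply Subtype.ext
      rw [coe_levelEquiv_symm, coe_heckeBetaBar, hzx]
    rw [coe_levelEquiv, e1, hW₁.beta, coe_heckeAlphaBar]
  have hcomm : ∀ s : LaurentSeries L,
      qExpand L r (qExpand L p s) = qExpand L p (qExpand L r s) := by
    intro s
    rw [qExpand_qExpand, qExpand_qExpand]
    exact qExpand_congr (mul_comm r p) s
  refine ⟨((levelEquiv L hN).symm.trans W₁).trans (levelEquiv L hN), fun x => ?_, fun x => ?_⟩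
  · -- compatibility with `α_r`
    have hle : Subfield.closure (Set.range (heckeAlphaBar L M p) ∪
        {heckeBetaBar L M p (jLevel L M)}) ≤
        ((((levelEquiv L hN).symm.trans W₁).trans (levelEquiv L hN)).toRingEquiv.toRingHom.comp
          (heckeAlphaBar L (M * p) r).toRingHom).eqLocusField
          ((heckeAlphaBar L (M * p) r).toRingHom.comp W.toRingEquiv.toRingHom) := by
      rw [Subfield.closure_le]
      rintro y (⟨x₀, rfl⟩ | hy)
      · show levelEquiv L hN (W₁ ((levelEquiv L hN).symm
            (heckeAlphaBar L (M * p) r (heckeAlphaBar L M p x₀)))) =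
          heckeAlphaBar L (M * p) r (W (heckeAlphaBar L M p x₀))
        apply Subtype.ext
        rw [hα _ (heckeAlphaBar L M r x₀)
          (by rw [coe_heckeAlphaBar, coe_heckeAlphaBar, coe_heckeAlphaBar]),
          hW.alpha, coe_heckeAlphaBar, coe_heckeAlphaBar, coe_heckeBetaBar]
      · rw [Set.mem_singleton_iff] at hy
        subst hy
        show levelEquiv L hN (W₁ ((levelEquiv L hN).symm
            (heckeAlphaBar L (M * p) r (heckeBetaBar L M p (jLevel L M))))) =
          heckeAlphaBar L (M * p) r (W (heckeBetaBar L M p (jLevel L M)))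
        apply Subtype.ext
        rw [hβ _ (heckeAlphaBar L M r (jLevel L M))
          (by rw [coe_heckeAlphaBar, coe_heckeBetaBar, coe_heckeAlphaBar]),
          hW.beta, coe_heckeAlphaBar, coe_heckeAlphaBar, coe_heckeAlphaBar]
    rw [closure_range_heckeAlphaBar_union L M p hp hpM] at hle
    exact hle (Subfield.mem_top x)
  · -- compatibility with `β_r`
    have hle : Subfield.closure (Set.range (heckeAlphaBar L M p) ∪
        {heckeBetaBar L M p (jLevel L M)}) ≤
        ((((levelEquiv L hN).symm.trans W₁).trans (levelEquiv L hN)).toRingEquiv.toRingHom.comp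
          (heckeBetaBar L (M * p) r).toRingHom).eqLocusField
          ((heckeBetaBar L (M * p) r).toRingHom.comp W.toRingEquiv.toRingHom) := by
      rw [Subfield.closure_le]
      rintro y (⟨x₀, rfl⟩ | hy)
      · show levelEquiv L hN (W₁ ((levelEquiv L hN).symm
            (heckeBetaBar L (M * p) r (heckeAlphaBar L M p x₀)))) =
          heckeBetaBar L (M * p) r (W (heckeAlphaBar L M p x₀))
        apply Subtype.ext
        rw [hα _ (heckeBetaBar L M r x₀)
          (by rw [coe_heckeBetaBar, coe_heckeAlphaBar, coe_heckeBetaBar]),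
          hW.alpha, coe_heckeBetaBar, coe_heckeBetaBar, coe_heckeBetaBar, hcomm]
      · rw [Set.mem_singleton_iff] at hy
        subst hy
        show levelEquiv L hN (W₁ ((levelEquiv L hN).symm
            (heckeBetaBar L (M * p) r (heckeBetaBar L M p (jLevel L M))))) =
          heckeBetaBar L (M * p) r (W (heckeBetaBar L M p (jLevel L M)))
        apply Subtype.ext
        rw [hβ _ (heckeBetaBar L M r (jLevel L M))
          (by rw [coe_heckeBetaBar, coe_heckeBetaBar, coe_heckeBetaBar, hcomm]),
          hW.beta, coe_heckeBetaBar, coe_heckeBetaBar, coe_heckeAlphaBar]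
    rw [closure_range_heckeAlphaBar_union L M p hp hpM] at hle
    exact hle (Subfield.mem_top x)

/-- **`autOp W` commutes with the Hecke correspondence `T_r`**, `p ∤ M r`. -/
theorem autOp_heckeOperatorAlong (hW : IsAL M p W) (hp : p.Prime) (hpM : ¬ p ∣ M) (r : ℕ)
    [NeZero r] (hpr : ¬ p ∣ M * r)
    (x : Pic0 L (laurentBaseChange L (modularFunctionFieldFull (M * p)))) :
    heckeOperatorAlong L (M * p) r (autOp W x) = autOp W (heckeOperatorAlong L (M * p) r x) := by
  by_cases h : HeckeInputsAlong L (M * p) r
  · obtain ⟨hα, hβ, hP, hfin, hFI, hN⟩ := h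
    have := hP
    obtain ⟨W', h1, h2⟩ := exists_lift hW hp hpM r hpr
    rw [heckeOperatorAlong_eq hα hβ hFI hfin hN, autOp_apply, autOp_apply,
      ← ofAlgAut_smul_pic0, ← ofAlgAut_smul_pic0]
    exact comm_pic0_correspondence (g := SemilinearAut.ofAlgAut W)
      (g' := SemilinearAut.ofAlgAut W') _ _ hβ hα hFI hfin hN (fun y => h2 y) (fun y => h1 y) x
  · rw [heckeOperatorAlong_of_not h, AddMonoidHom.zero_apply, AddMonoidHom.zero_apply, map_zero]

end Hecke

/-! ### The Jacobian `J_0(M p)` over `ℚ̄` -/

section JZero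

local notation "Qb" => AlgebraicClosure ℚ

variable {M p : ℕ} [NeZero M] [NeZero p]
  {W : laurentBaseChange Qb (modularFunctionFieldFull (M * p)) ≃ₐ[Qb]
    laurentBaseChange Qb (modularFunctionFieldFull (M * p))}

/-- **`autOp W` commutes with the Hecke operators `T_ℓ`, `ℓ ≠ p`, on `J_0(M p)`.** -/
theorem autOp_heckeOperatorBar (hW : IsAL M p W) (hp : p.Prime) (hpM : ¬ p ∣ M)
    (ℓ : Nat.Primes) (hℓ : (ℓ : ℕ) ≠ p) (x : JZero (M * p)) :
    heckeOperatorBar (M * p) ℓ (autOp W x) = autOp W (heckeOperatorBar (M * p) ℓ x) := by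
  haveI : NeZero (ℓ : ℕ) := ⟨ℓ.2.ne_zero⟩
  have hpr : ¬ p ∣ M * (ℓ : ℕ) := by
    intro hd
    rcases (Nat.Prime.dvd_mul hp).mp hd with h1 | h1
    · exact hpM h1
    · exact hℓ ((Nat.prime_dvd_prime_iff_eq hp ℓ.2).mp h1).symm
  rw [heckeOperatorBar_apply, heckeOperatorBar_apply]
  exact autOp_heckeOperatorAlong hW hp hpM (ℓ : ℕ) hpr x

/-- `autOp W` commutes with the Galois action on `J_0(M p)`. -/
theorem autOp_galois_JZero (hW : IsAL M p W) (hp : p.Prime) (hpM : ¬ p ∣ M)
    (σ : Qb ≃ₐ[ℚ] Qb) (x : JZero (M * p)) : autOp W (σ • x) = σ • autOp W x :=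
  autOp_galois hW hp hpM σ x

/-- Fixed classes: `σ` fixes `autOp W x` iff it fixes `x`. -/
theorem galois_fixed_autOp_iff (hW : IsAL M p W) (hp : p.Prime) (hpM : ¬ p ∣ M)
    (σ : Qb ≃ₐ[ℚ] Qb) (x : JZero (M * p)) : σ • autOp W x = autOp W x ↔ σ • x = x := by
  rw [← autOp_galois hW hp hpM σ x]
  exact ⟨fun h => autOp_injective h, fun h => by rw [h]⟩

/-- Eigenclasses: `T_ℓ (autOp W x) = a • autOp W x` iff `T_ℓ x = a • x` (`ℓ ≠ p`). -/
theorem hecke_eigen_autOp_iff (hW : IsAL M p W) (hp : p.Prime) (hpM : ¬ p ∣ M)
    (ℓ : Nat.Primes) (hℓ : (ℓ : ℕ) ≠ p) (a : ℤ) (x : JZero (M * p)) :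
    heckeOperatorBar (M * p) ℓ (autOp W x) = a • autOp W x ↔
      heckeOperatorBar (M * p) ℓ x = a • x := by
  rw [autOp_heckeOperatorBar hW hp hpM ℓ hℓ x, ← map_zsmul]
  exact ⟨fun h => autOp_injective h, fun h => by rw [h]⟩

end JZero

end Fermat.Agent.TR.Zero.ALTransport

end
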